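import Mathlib

/-!
# Burnside's theorem in dimension 2 (helper368, row S31 piece A)

Over an algebraically closed field `K`, if a monoid `G` acts irreducibly on a `K`-vector space `V`
of dimension `2`, then the image of `G` spans `End_K V`.
-/

set_option autoImplicit false

namespace Fermat.Agent.S31.H368

section Burnside

variable {K : Type*} [Field K] [IsAlgClosed K] {V : Type*} [AddCommGroup V] [Module K V]
  {G : Type*} [Monoid G]

/-- The span of the image of a monoid hom into an algebra is closed under multiplication. -/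
theorem mul_mem_span_range {A : Type*} [Ring A] [Algebra K A] (r : G →* A) {a b : A}
    (ha : a ∈ Submodule.span K (Set.range r)) (hb : b ∈ Submodule.span K (Set.range r)) :
    a * b ∈ Submodule.span K (Set.range r) := by
  induction ha using Submodule.span_induction with
  | mem x hx =>
    obtain ⟨g, rfl⟩ := hx
    induction hb using Submodule.span_induction with
    | mem y hy =>
      obtain ⟨g', rfl⟩ := hy
      rw [← map_mul]
      exact Submodule.subset_span ⟨_, rfl⟩
    | zero => simp
    | add y z _ _ hy hz => rw [mul_add]; exact Submodule.add_mem _ hy hz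
    | smul c y _ hy => rw [mul_smul_comm]; exact Submodule.smul_mem _ _ hy
  | zero => simp
  | add x y _ _ hx hy => rw [add_mul]; exact Submodule.add_mem _ hx hy
  | smul c x _ hx => rw [smul_mul_assoc]; exact Submodule.smul_mem _ _ hx

theorem one_mem_span_range {A : Type*} [Ring A] [Algebra K A] (r : G →* A) :
    (1 : A) ∈ Submodule.span K (Set.range r) :=
  Submodule.subset_span ⟨1, map_one r⟩

/-- For an irreducible action and `x ≠ 0`, every vector is of the form `a x` with `a` in the
span of the image. -/
theorem exists_mem_span_apply_eq (r : G →* Module.End K V)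
    (hirr : ∀ W : Submodule K V, (∀ g, ∀ x ∈ W, r g x ∈ W) → W = ⊥ ∨ W = ⊤)
    {x : V} (hx : x ≠ 0) (u : V) :
    ∃ a ∈ Submodule.span K (Set.range r), a x = u := by
  set W : Submodule K V :=
    Submodule.map (LinearMap.applyₗ x : Module.End K V →ₗ[K] V) (Submodule.span K (Set.range r))
    with hW
  have hstab : ∀ g, ∀ y ∈ W, r g y ∈ W := by
    rintro g y ⟨a, ha, rfl⟩
    refine ⟨r g * a, mul_mem_span_range r (Submodule.subset_span ⟨g, rfl⟩) ha, ?_⟩
    simp
  have hxW : x ∈ W := ⟨1, one_mem_span_range r, by simp⟩
  rcases hirr W hstab with h | h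
  · exfalso
    rw [h] at hxW
    exact hx ((Submodule.mem_bot K).1 hxW)
  · have hu : u ∈ W := by rw [h]; trivial
    obtain ⟨a, ha, hau⟩ := hu
    exact ⟨a, ha, by simpa using hau⟩

/-- **Burnside's theorem in dimension 2.** -/
theorem span_range_eq_top_of_irreducible (hV : Module.finrank K V = 2)
    (r : G →* Module.End K V)
    (hirr : ∀ W : Submodule K V, (∀ g, ∀ x ∈ W, r g x ∈ W) → W = ⊥ ∨ W = ⊤) :
    Submodule.span K (Set.range r) = ⊤ := by
  classical
  haveI : FiniteDimensional K V := Module.finite_of_finrank_eq_succ hV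
  haveI : Nontrivial V := Module.nontrivial_of_finrank_pos (R := K) (by rw [hV]; norm_num)
  set 𝒜 : Submodule K (Module.End K V) := Submodule.span K (Set.range r) with h𝒜
  -- a nonzero vector
  obtain ⟨v₀, hv₀⟩ := exists_ne (0 : V)
  -- a non-scalar element of the image
  have hns : ∃ g, r g v₀ ∉ Submodule.span K {v₀} := by
    by_contra hcon
    push_neg at hcon
    have hstab : ∀ g, ∀ x ∈ Submodule.span K {v₀}, r g x ∈ Submodule.span K {v₀} := by
      intro g x hx
      obtain ⟨c, rfl⟩ := Submodule.mem_span_singleton.1 hx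
      rw [map_smul]
      exact Submodule.smul_mem _ _ (hcon g)
    rcases hirr _ hstab with h | h
    · exact hv₀ ((Submodule.span_singleton_eq_bot).1 h)
    · have h1 : Module.finrank K (Submodule.span K {v₀}) = 1 := finrank_span_singleton hv₀
      rw [h, finrank_top, hV] at h1
      norm_num at h1
  obtain ⟨g₀, hg₀⟩ := hns
  -- an eigenvalue
  obtain ⟨μ, hμ⟩ := Module.End.exists_eigenvalue (r g₀)
  obtain ⟨v, hv⟩ := hμ.exists_hasEigenvector
  have hvne : v ≠ 0 := hv.2
  have hrv : r g₀ v = μ • v := hv.apply_eq_smul
  set n : Module.End K V := r g₀ - μ • 1 with hn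
  have hn𝒜 : n ∈ 𝒜 :=
    Submodule.sub_mem _ (Submodule.subset_span ⟨g₀, rfl⟩)
      (Submodule.smul_mem _ _ (one_mem_span_range r))
  have hnv : n v = 0 := by simp [hn, hrv]
  have hnv₀ : n v₀ ≠ 0 := by
    intro h0
    apply hg₀
    have : r g₀ v₀ = μ • v₀ := by
      have := h0
      simp only [hn, LinearMap.sub_apply, LinearMap.smul_apply, Module.End.one_apply] at this
      exact sub_eq_zero.1 this
    rw [this]
    exact Submodule.smul_mem _ _ (Submodule.mem_span_singleton_self v₀)
  -- the evaluation at `v` on `𝒜`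
  set f : 𝒜 →ₗ[K] V := (LinearMap.applyₗ v : Module.End K V →ₗ[K] V).domRestrict 𝒜 with hf
  have hfsurj : Function.Surjective f := by
    intro u
    obtain ⟨a, ha, hau⟩ := exists_mem_span_apply_eq r hirr hvne u
    exact ⟨⟨a, ha⟩, hau⟩
  -- the evaluation at `v₀` on `ker f`
  set e : LinearMap.ker f →ₗ[K] V :=
    ((LinearMap.applyₗ v₀ : Module.End K V →ₗ[K] V).domRestrict 𝒜).domRestrict (LinearMap.ker f)
    with he
  have hesurj : Function.Surjective e := by
    intro u
    obtain ⟨a, ha, hau⟩ := exists_mem_span_apply_eq r hirr hnv₀ u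
    have hb : a * n ∈ 𝒜 := mul_mem_span_range r ha hn𝒜
    refine ⟨⟨⟨a * n, hb⟩, ?_⟩, ?_⟩
    · rw [LinearMap.mem_ker]
      change (a * n) v = 0
      rw [Module.End.mul_apply, hnv, map_zero]
    · change (a * n) v₀ = u
      rw [Module.End.mul_apply, hau]
  have h1 : Module.finrank K (LinearMap.range f) = 2 := by
    rw [LinearMap.range_eq_top.2 hfsurj, finrank_top, hV]
  have h2 : 2 ≤ Module.finrank K (LinearMap.ker f) := by
    have := LinearMap.finrank_range_le e
    rw [LinearMap.range_eq_top.2 hesurj, finrank_top, hV] at this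
    exact this
  have h3 := LinearMap.finrank_range_add_finrank_ker f
  have h4 : Module.finrank K (Module.End K V) = 4 := by
    rw [Module.finrank_linearMap, hV]
  have h5 : Module.finrank K 𝒜 ≤ 4 := h4 ▸ Submodule.finrank_le 𝒜
  apply Submodule.eq_top_of_finrank_eq
  omega

end Burnside

end Fermat.Agent.S31.H368
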