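import Mathlib

/-!
# Spanning lifts along a local homomorphism to a field (helper368, row S31 piece A)
-/

set_option autoImplicit false

namespace Fermat.Agent.S31.H368

open Module

/-- If the images of the matrices `M g` under a local homomorphism `ι : T → K` to a field span
`Mₙ(K)`, then the `M g` span `Mₙ(T)`.  (A `K`-basis among the images has a change-of-basis
determinant which is the image of a unit of `T`.) -/
theorem matrix_span_eq_top_of_map {T K : Type*} [CommRing T] [Field K] (ι : T →+* K)
    [IsLocalHom ι] {n : Type*} [Fintype n] [DecidableEq n] {G : Type*}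
    (M : G → Matrix n n T)
    (h : Submodule.span K (Set.range fun g => (M g).map ι) = ⊤) :
    Submodule.span T (Set.range M) = ⊤ := by
  classical
  have : Nontrivial T := ι.domain_nontrivial
  obtain ⟨b, hb, hspan, hli⟩ :=
    exists_linearIndependent K (Set.range fun g => (M g).map ι)
  rw [h] at hspan
  let B : Basis b K (Matrix n n K) := Basis.mk hli (by rw [Subtype.range_coe]; exact hspan.ge)
  let e : Basis (n × n) K (Matrix n n K) := Matrix.stdBasis K n n
  let σ : n × n ≃ b := e.indexEquiv B
  have hg : ∀ a : n × n, ∃ g : G, (M g).map ι = (σ a : Matrix n n K) := fun a => hb (σ a).2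
  choose g hg using hg
  -- the family `v a = (M (g a)).map ι` is a basis
  have hv : (fun a => (M (g a)).map ι) = ⇑(B.reindex σ.symm) := by
    funext a
    rw [hg a]
    simp [B]
  have hunit : IsUnit (e.det fun a => (M (g a)).map ι) := by
    rw [hv]
    exact e.isUnit_det _
  -- compute the determinant
  let P : Matrix (n × n) (n × n) T := Matrix.of fun i a => M (g a) i.1 i.2
  have hP : (e.toMatrix fun a => (M (g a)).map ι) = P.map ι := by
    ext i a
    simp [e, P, Basis.toMatrix_apply, Matrix.stdBasis]
  rw [Basis.det_apply, hP, ← RingHom.mapMatrix_apply, ← RingHom.map_det] at hunit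
  have hunitP : IsUnit P.det := isUnit_of_map_unit ι _ hunit
  let eT : Basis (n × n) T (Matrix n n T) := Matrix.stdBasis T n n
  have hPT : (eT.toMatrix fun a => M (g a)) = P := by
    ext i a
    simp [eT, P, Basis.toMatrix_apply, Matrix.stdBasis]
  have hunitT : IsUnit (eT.det fun a => M (g a)) := by
    rw [Basis.det_apply, hPT]
    exact hunitP
  have hsp := ((Basis.is_basis_iff_det eT).2 hunitT).2
  refine top_le_iff.1 (hsp.ge.trans (Submodule.span_mono ?_))
  rintro _ ⟨a, rfl⟩
  exact ⟨g a, rfl⟩

end Fermat.Agent.S31.H368
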