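import Mathlib
import Fermat.Prelude.Def_GaloisRep_Adic
import Fermat.Agent.S31.H368.Burnside2
import Fermat.Agent.S31.H368.MatSpan

/-!
# Row S31, piece A (ALG-TR): the trace criterion (helper368)

`trace_criterion`: if `ρ : GaloisRepAdic T` (`T` any local ring) is residually absolutely
irreducible and `tr ρ(g τ) = tr ρ(g)` for all `g`, then `ρ(τ) = 1`.

Proof: Burnside over `k̄` (`Burnside2.lean`) shows that the matrices of `ρ̄ ⊗ k̄` span `M₂(k̄)`;
a `k̄`-basis among them has change-of-basis determinant the image of a unit of `T`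
(`MatSpan.lean`), so the matrices of `ρ` span `M₂(T)`; the trace form on `M₂(T)` is
non-degenerate.
-/

set_option autoImplicit false

open scoped TensorProduct
open Module

namespace Fermat.Agent.S31.H368

/-- The matrices of `ρ(g)` span `M₂(T)` when `ρ` is residually absolutely irreducible. -/
theorem toMatrix_span_eq_top {T : Type} [CommRing T] [IsLocalRing T] (ρ : GaloisRepAdic T)
    (hirr : ρ.residual.IsAbsolutelyIrreducible) (b : Basis (Fin 2) T ρ.V) :
    Submodule.span T (Set.range fun g : AlgebraicClosure ℚ ≃ₐ[ℚ] AlgebraicClosure ℚ =>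
      LinearMap.toMatrix b b (ρ.ρ g)) = ⊤ := by
  classical
  let k := IsLocalRing.ResidueField T
  let K := AlgebraicClosure k
  let ι : T →+* K := (algebraMap k K).comp (IsLocalRing.residue T)
  have hι : IsLocalHom ι := RingHom.isLocalHom_comp _ _
  apply matrix_span_eq_top_of_map ι
  -- the representation over `K`, with explicit carrier
  let r' : (AlgebraicClosure ℚ ≃ₐ[ℚ] AlgebraicClosure ℚ) →*
      Module.End K (K ⊗[k] (k ⊗[T] ρ.V)) :=
    { toFun := fun σ => ((ρ.ρ σ).baseChange k).baseChange K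
      map_one' := by rw [map_one, LinearMap.baseChange_one, LinearMap.baseChange_one]
      map_mul' := fun σ τ => by
        rw [map_mul, LinearMap.baseChange_mul, LinearMap.baseChange_mul] }
  have hfin : Module.finrank K (K ⊗[k] (k ⊗[T] ρ.V)) = 2 :=
    (ρ.residual.baseChange K).finrank_eq
  have hirr' : ∀ W : Submodule K (K ⊗[k] (k ⊗[T] ρ.V)),
      (∀ g, ∀ x ∈ W, r' g x ∈ W) → W = ⊥ ∨ W = ⊤ := hirr
  -- Burnside over `K`
  have hB := span_range_eq_top_of_irreducible hfin r' hirr'
  let bk : Basis (Fin 2) k (k ⊗[T] ρ.V) := Algebra.TensorProduct.basis k b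
  let bK : Basis (Fin 2) K (K ⊗[k] (k ⊗[T] ρ.V)) := Algebra.TensorProduct.basis K bk
  have key : ∀ g, (LinearMap.toMatrix b b (ρ.ρ g)).map ι =
      LinearMap.toMatrix bK bK (r' g) := by
    intro g
    change _ = LinearMap.toMatrix bK bK (((ρ.ρ g).baseChange k).baseChange K)
    rw [LinearMap.toMatrix_baseChange, LinearMap.toMatrix_baseChange, Matrix.map_map]
    rfl
  have hrange : (Set.range fun g => (LinearMap.toMatrix b b (ρ.ρ g)).map ι) =
      (LinearMap.toMatrix bK bK) '' (Set.range r') := by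
    ext x
    constructor
    · rintro ⟨g, rfl⟩
      exact ⟨_, ⟨g, rfl⟩, (key g).symm⟩
    · rintro ⟨_, ⟨g, rfl⟩, rfl⟩
      exact ⟨g, key g⟩
  have hmap := Submodule.map_span (LinearMap.toMatrix bK bK).toLinearMap (Set.range r')
  rw [hrange]
  change Submodule.span K ((LinearMap.toMatrix bK bK).toLinearMap '' Set.range r') = ⊤
  rw [← hmap, hB, Submodule.map_top, LinearMap.range_eq_top]
  exact (LinearMap.toMatrix bK bK).surjective

/-- **Piece A of row S31 (trace criterion).**  If `ρ` is residually absolutely irreducible and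
`tr ρ(g τ) = tr ρ(g)` for all `g`, then `ρ(τ) = 1`.  (Here
`AlgebraicClosure ℚ ≃ₐ[ℚ] AlgebraicClosure ℚ` is the row's `GQ`.) -/
theorem trace_criterion {T : Type} [CommRing T] [IsLocalRing T] (ρ : GaloisRepAdic T)
    (hirr : ρ.residual.IsAbsolutelyIrreducible)
    (τ : AlgebraicClosure ℚ ≃ₐ[ℚ] AlgebraicClosure ℚ)
    (h : ∀ g : AlgebraicClosure ℚ ≃ₐ[ℚ] AlgebraicClosure ℚ, ρ.trace (g * τ) = ρ.trace g) :
    ρ.ρ τ = 1 := by
  classical
  let b : Basis (Fin 2) T ρ.V := Module.finBasisOfFinrankEq T ρ.V ρ.finrank_eq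
  have hspan := toMatrix_span_eq_top ρ hirr b
  set M : (AlgebraicClosure ℚ ≃ₐ[ℚ] AlgebraicClosure ℚ) → Matrix (Fin 2) (Fin 2) T :=
    fun g => LinearMap.toMatrix b b (ρ.ρ g) with hMdef
  have hM : ∀ g, Matrix.trace (M g * (M τ - 1)) = 0 := by
    intro g
    have := h g
    simp only [GaloisRepAdic.trace] at this
    rw [LinearMap.trace_eq_matrix_trace T b, LinearMap.trace_eq_matrix_trace T b, map_mul,
      LinearMap.toMatrix_mul] at this
    rw [mul_sub, mul_one, Matrix.trace_sub, sub_eq_zero]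
    exact this
  have hall : ∀ x : Matrix (Fin 2) (Fin 2) T, Matrix.trace (x * (M τ - 1)) = 0 := by
    intro x
    have hx : x ∈ Submodule.span T (Set.range M) := by rw [hspan]; trivial
    induction hx using Submodule.span_induction with
    | mem y hy => obtain ⟨g, rfl⟩ := hy; exact hM g
    | zero => simp
    | add y z _ _ hy hz => rw [add_mul, Matrix.trace_add, hy, hz, add_zero]
    | smul c y _ hy => rw [Matrix.smul_mul, Matrix.trace_smul, hy, smul_zero]
  have hy0 : M τ - 1 = 0 :=
    Matrix.ext_iff_trace_mul_left.2 (fun x => by rw [hall x]; simp)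
  have h1 : LinearMap.toMatrix b b (ρ.ρ τ) = LinearMap.toMatrix b b 1 := by
    rw [LinearMap.toMatrix_one]; exact sub_eq_zero.1 hy0
  exact (LinearMap.toMatrix b b).injective h1

end Fermat.Agent.S31.H368
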